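import Fermat.Agent.A2.Mod.Spec
import Fermat.Agent.S18.H516.GaussDecomp
import Fermat.Agent.S18.H516.CoreRes
import Fermat.Agent.S37.H400.KronFrob
import Fermat.Agent.S37.H697.FrobF

/-!
# A2 / MOD leaf L12 `Kron` (helper485): the Kronecker congruence, semilinear form

    theorem kron : KronStatement P E M q w

For `a ∈ V∞_M` there is `a' ∈ V∞_M` with `β a ≡ (α a')^q mod w V∞` (level `M q`).

Proof.  Write `a = U₁ / U₂` with `U₂` primitive.  The reductions `ū₁, ū₂` lie in
`F_{M,k} = k(j̄_d : d ∣ M)` (S28 `CoreData M k`, H516 `red_mem_of_incl_mem`), and so does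
`z' := Frob⁻¹(ū₁ / ū₂)` (coefficientwise inverse Frobenius; `k` is perfect because it is algebraic
over `𝔽_q`; H697 `coeffMap_mem_fullC`).  Lift `z' = w̄₁ / w̄₂` (`exists_lift`, induction on the
subfield generated by `k` and the `j̄_d`) and put `a' = W₁ / W₂`.  In characteristic `q`,
`z'^q = (Frob z')(t^q) = (ū₁/ū₂)(t^q)` (H400 `laurent_pow_char`), so the integral series
`U₁(t^q) W₂^q − W₁^q U₂(t^q)` reduces to `0`, hence is divisible by `w`, while the denominator
`U₂(t^q) W₂^q` is primitive.
-/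

set_option autoImplicit false
set_option linter.style.haveILetI false
set_option linter.unusedSectionVars false
set_option synthInstance.maxHeartbeats 400000
set_option maxHeartbeats 1600000

noncomputable section

namespace Fermat.Agent.A2.Mod.H485

open ModularCurve HahnSeries Polynomial Fermat.Agent.A2 Fermat.Agent.A2.Mod

/-! ### the residue field of `R_E` -/

section residue

variable (P : ValuationSubring Qb) (E : IntermediateField ℚ Qb)

theorem liesOver_RE {q : ℕ} (hP : P.LiesOverPrime q) : (RE P E).LiesOverPrime q := by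
  show (RE P E).valuation ((q : ℕ) : E) < 1
  have hmem : ((q : ℕ) : E) ∈ RE P E := natCast_mem _ q
  by_contra hcon
  have hle : (RE P E).valuation ((q : ℕ) : E) ≤ 1 :=
    (ValuationSubring.valuation_le_one_iff _ _).mpr hmem
  have heq : (RE P E).valuation ((q : ℕ) : E) = 1 := le_antisymm hle (not_lt.mp hcon)
  have hu : IsUnit (⟨((q : ℕ) : E), hmem⟩ : RE P E) :=
    (ValuationSubring.valuation_eq_one_iff _ _).mpr heq
  obtain ⟨u, hu'⟩ := isUnit_iff_exists_inv.mp hu
  have h1 : ((q : ℕ) : Qb) * ((u : E) : Qb) = 1 := by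
    have := congrArg (fun x : RE P E => ((x : E) : Qb)) hu'
    simpa using this
  have hPq : P.valuation ((q : ℕ) : Qb) < 1 := hP
  have hu_mem : ((u : E) : Qb) ∈ P := u.2
  have h2 : P.valuation (((q : ℕ) : Qb) * ((u : E) : Qb)) < 1 := by
    rw [map_mul]
    exact mul_lt_one_of_lt_of_le hPq ((P.valuation_le_one_iff _).mpr hu_mem)
  rw [h1, map_one] at h2
  exact lt_irrefl _ h2

/-- every element of `R_E` is a root of a polynomial over `ℤ` which is nonzero mod `q` -/
theorem exists_polynomial_residue (r : RE P E) {q : ℕ} (hq : q.Prime) :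
    ∃ F : Polynomial ℤ, F.map (Int.castRingHom (ZMod q)) ≠ 0 ∧
      Polynomial.eval₂ (Int.castRingHom (RE P E)) r F = 0 := by
  have halgQ : IsAlgebraic ℚ ((r : E) : Qb) := (AlgebraicClosure.isAlgebraic ℚ).isAlgebraic _
  have halgZ : IsAlgebraic ℤ ((r : E) : Qb) := (IsFractionRing.isAlgebraic_iff ℤ ℚ Qb).mpr halgQ
  obtain ⟨F, hF0, hF⟩ := halgZ
  have hprim : F.primPart.IsPrimitive := Polynomial.isPrimitive_primPart F
  have hev : Polynomial.aeval ((r : E) : Qb) F.primPart = 0 := by
    have h1 := F.eq_C_content_mul_primPart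
    rw [h1, map_mul, Polynomial.aeval_C] at hF
    rcases mul_eq_zero.mp hF with h | h
    · exfalso
      have : (F.content : Qb) = 0 := by simpa using h
      have h2 : F.content = 0 := by exact_mod_cast this
      exact hF0 (Polynomial.content_eq_zero_iff.mp h2)
    · exact h
  refine ⟨F.primPart, ?_, ?_⟩
  · intro h0
    have hdvd : Polynomial.C (q : ℤ) ∣ F.primPart := by
      rw [Polynomial.C_dvd_iff_dvd_coeff]
      intro i
      have := congrArg (fun Q : Polynomial (ZMod q) => Q.coeff i) h0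
      simp only [Polynomial.coeff_map, Polynomial.coeff_zero, eq_intCast] at this
      exact (ZMod.intCast_zmod_eq_zero_iff_dvd _ _).mp this
    have hu := hprim _ hdvd
    have : IsUnit (q : ℤ) := hu
    rw [Int.isUnit_iff] at this
    have hq2 := hq.two_le
    omega
  · have hinj : Function.Injective ((algebraMap E Qb).comp (RE P E).subtype) := by
      intro a b h
      exact Subtype.ext (Subtype.ext h)
    apply hinj
    rw [map_zero, Polynomial.hom_eval₂]
    have : (((algebraMap E Qb).comp (RE P E).subtype).comp (Int.castRingHom (RE P E))) =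
        algebraMap ℤ Qb := RingHom.ext_int _ _
    rw [this]
    exact hev

theorem charP_residue {q : ℕ} [Fact q.Prime] (hP : P.LiesOverPrime q) :
    CharP (IsLocalRing.ResidueField (RE P E)) q :=
  Fermat.Agent.S18.H516.charP_residue (RE P E) (liesOver_RE P E hP)

theorem perfectField_residue {q : ℕ} [Fact q.Prime] (hP : P.LiesOverPrime q) :
    PerfectField (IsLocalRing.ResidueField (RE P E)) := by
  have hq : q.Prime := Fact.out
  haveI : CharP (IsLocalRing.ResidueField (RE P E)) q := charP_residue P E hP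
  letI : Algebra (ZMod q) (IsLocalRing.ResidueField (RE P E)) := ZMod.algebra _ q
  haveI : Algebra.IsAlgebraic (ZMod q) (IsLocalRing.ResidueField (RE P E)) := by
    refine ⟨fun x => ?_⟩
    obtain ⟨r', rfl⟩ := IsLocalRing.residue_surjective x
    obtain ⟨F, hF0, hF⟩ := exists_polynomial_residue P E r' hq
    refine ⟨F.map (Int.castRingHom (ZMod q)), hF0, ?_⟩
    rw [Polynomial.aeval_def, Polynomial.eval₂_map]
    have h1 : (algebraMap (ZMod q) (IsLocalRing.ResidueField (RE P E))).comp
        (Int.castRingHom (ZMod q)) =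
        (IsLocalRing.residue (RE P E)).comp (Int.castRingHom (RE P E)) := RingHom.ext_int _ _
    rw [h1, ← Polynomial.hom_eval₂, hF, map_zero]
  exact Algebra.IsAlgebraic.perfectField (ZMod q)

end residue

/-! ### lifting elements of `F_{N,k}` -/

section lift

variable (P : ValuationSubring Qb) (E : IntermediateField ℚ Qb) (N : ℕ) [NeZero N]

/-- `z` is a quotient of reductions of `R_E`-integral series lying in `F_N`. -/
def IsRedQuot (z : LaurentSeries (IsLocalRing.ResidueField (RE P E))) : Prop :=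
  ∃ W₁ W₂ : LaurentSeries (RE P E),
    H708.incl (RE P E) W₁ ∈ FE E N ∧ H708.incl (RE P E) W₂ ∈ FE E N ∧
    H708.red (RE P E) W₂ ≠ 0 ∧ z * H708.red (RE P E) W₂ = H708.red (RE P E) W₁

variable {P E N}

theorem isRedQuot_of_incl {W : LaurentSeries (RE P E)} (hW : H708.incl (RE P E) W ∈ FE E N) :
    IsRedQuot P E N (H708.red (RE P E) W) :=
  ⟨W, 1, hW, by rw [map_one]; exact one_mem _, by rw [map_one]; exact one_ne_zero,
    by rw [map_one, mul_one]⟩

theorem IsRedQuot.add {z z' : LaurentSeries (IsLocalRing.ResidueField (RE P E))}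
    (h : IsRedQuot P E N z) (h' : IsRedQuot P E N z') : IsRedQuot P E N (z + z') := by
  obtain ⟨a, b, ha, hb, hb0, hab⟩ := h
  obtain ⟨a', b', ha', hb', hb0', hab'⟩ := h'
  refine ⟨a * b' + a' * b, b * b', ?_, ?_, ?_, ?_⟩
  · rw [map_add, map_mul, map_mul]
    exact add_mem (mul_mem ha hb') (mul_mem ha' hb)
  · rw [map_mul]; exact mul_mem hb hb'
  · rw [map_mul]; exact mul_ne_zero hb0 hb0'
  · rw [map_mul, map_add, map_mul, map_mul, ← hab, ← hab']
    ring

theorem IsRedQuot.mul {z z' : LaurentSeries (IsLocalRing.ResidueField (RE P E))}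
    (h : IsRedQuot P E N z) (h' : IsRedQuot P E N z') : IsRedQuot P E N (z * z') := by
  obtain ⟨a, b, ha, hb, hb0, hab⟩ := h
  obtain ⟨a', b', ha', hb', hb0', hab'⟩ := h'
  refine ⟨a * a', b * b', ?_, ?_, ?_, ?_⟩
  · rw [map_mul]; exact mul_mem ha ha'
  · rw [map_mul]; exact mul_mem hb hb'
  · rw [map_mul]; exact mul_ne_zero hb0 hb0'
  · rw [map_mul, map_mul, ← hab, ← hab']
    ring

theorem IsRedQuot.neg {z : LaurentSeries (IsLocalRing.ResidueField (RE P E))}
    (h : IsRedQuot P E N z) : IsRedQuot P E N (-z) := by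
  obtain ⟨a, b, ha, hb, hb0, hab⟩ := h
  refine ⟨-a, b, ?_, hb, hb0, ?_⟩
  · rw [map_neg]; exact neg_mem ha
  · rw [map_neg, ← hab, neg_mul]

theorem IsRedQuot.inv {z : LaurentSeries (IsLocalRing.ResidueField (RE P E))}
    (h : IsRedQuot P E N z) : IsRedQuot P E N z⁻¹ := by
  obtain ⟨a, b, ha, hb, hb0, hab⟩ := h
  by_cases hz : z = 0
  · rw [hz, inv_zero]
    exact ⟨0, 1, by rw [map_zero]; exact zero_mem _, by rw [map_one]; exact one_mem _,
      by rw [map_one]; exact one_ne_zero, by rw [map_zero, zero_mul]⟩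
  · have ha0 : H708.red (RE P E) a ≠ 0 := by
      rw [← hab]; exact mul_ne_zero hz hb0
    refine ⟨b, a, hb, ha, ha0, ?_⟩
    rw [← hab, ← mul_assoc, inv_mul_cancel₀ hz, one_mul]

theorem isRedQuot_const (c : IsLocalRing.ResidueField (RE P E)) :
    IsRedQuot P E N (algebraMap _ (LaurentSeries (IsLocalRing.ResidueField (RE P E))) c) := by
  obtain ⟨r, rfl⟩ := IsLocalRing.residue_surjective c
  have h := isRedQuot_of_incl (P := P) (E := E) (N := N) (W := H708.cstA (RE P E) r) (by
    rw [H708.incl_cstA]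
    exact (FE E N).algebraMap_mem _)
  rw [H708.red_cstA] at h
  rwa [algebraMap_laurentSeries_eq_single]

theorem isRedQuot_jd {d : ℕ} [NeZero d] (hd : d ∣ N) :
    IsRedQuot P E N (qExpand _ d (jqModC (IsLocalRing.ResidueField (RE P E)))) := by
  have h := isRedQuot_of_incl (P := P) (E := E) (N := N)
    (W := H708.castA (RE P E) (qExpand ℤ d (jqModC ℤ))) (by
      rw [H708.incl_castA]
      refine coeffEmb_mem_laurentBaseChange E ?_
      have : H708.castQ (qExpand ℤ d (jqModC ℤ)) = qExpand ℚ d jq := by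
        rw [H708.castQ, coeffMap_qExpand, coeffMap_jqModC, jqModC_rat]
      rw [this]
      exact jqd_mem_full N hd)
  have h2 : H708.red (RE P E) (H708.castA (RE P E) (qExpand ℤ d (jqModC ℤ))) =
      qExpand _ d (jqModC (IsLocalRing.ResidueField (RE P E))) := by
    rw [H708.red, H708.castA, coeffMap_coeffMap, coeffMap_qExpand, coeffMap_jqModC]
  rwa [h2] at h

/-- **Surjectivity of the reduction**: every element of `F_{N,k}` is a quotient of reductions
of integral series of `F_N`. -/
theorem exists_lift {z : LaurentSeries (IsLocalRing.ResidueField (RE P E))}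
    (hz : z ∈ modularFunctionFieldFullC (IsLocalRing.ResidueField (RE P E)) N) :
    IsRedQuot P E N z := by
  rw [Fermat.Agent.S37.H697.mem_fullC_iff] at hz
  induction hz using Subfield.closure_induction with
  | mem y hy =>
      rcases hy with ⟨a, rfl⟩ | ⟨d, hd, hdN, rfl⟩
      · exact isRedQuot_const a
      · haveI := hd
        exact isRedQuot_jd hdN
  | one =>
      have h := isRedQuot_of_incl (P := P) (E := E) (N := N) (W := 1) (by
        rw [map_one]; exact one_mem _)
      rwa [map_one] at h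
  | add x y _ _ hx hy => exact hx.add hy
  | neg x _ hx => exact hx.neg
  | inv x _ hx => exact hx.inv
  | mul x y _ _ hx hy => exact hx.mul hy

end lift

/-! ### the leaf -/

section kron

variable (P : ValuationSubring Qb) (E : IntermediateField ℚ Qb) (M q : ℕ) [NeZero M] [NeZero q]
  (w : RE P E)

/-- a series over `R_E` with zero reduction is `w` times a series over `R_E` -/
theorem exists_incl_eq_cst_inv_mul (hdvr : IsDiscreteValuationRing (RE P E))
    (hw : Irreducible w) {X : LaurentSeries (RE P E)} (hX : H708.red (RE P E) X = 0) :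
    ∃ X' : LaurentSeries (RE P E),
      H708.incl (RE P E) X' = H708.cst ((w : E)⁻¹) * H708.incl (RE P E) X := by
  apply H708.exists_incl_eq
  intro n
  rw [H708.coeff_cst_mul, H708.coeff_incl]
  have h1 : X.coeff n ∈ IsLocalRing.maximalIdeal (RE P E) := by
    have := congrArg (fun z => z.coeff n) hX
    simpa only [coeffMap_coeff, HahnSeries.coeff_zero, IsLocalRing.residue_eq_zero_iff] using this
  rw [(IsDiscreteValuationRing.irreducible_iff_uniformizer w).mp hw,
    Ideal.mem_span_singleton'] at h1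
  obtain ⟨y, hy⟩ := h1
  have hw0 : (w : E) ≠ 0 := fun h => hw.ne_zero (Subtype.ext h)
  have h2 : ((X.coeff n : RE P E) : E) = (y : E) * (w : E) := by
    rw [← hy]; rfl
  rw [h2, mul_comm (y : E), ← mul_assoc, inv_mul_cancel₀ hw0, one_mul]
  exact y.2

/-- **L12 (Kronecker congruence, semilinear form).** -/
theorem kron : KronStatement P E M q w := by
  intro hS VM V hVM hV a ha
  haveI : Fact q.Prime := ⟨hS.q_prime⟩
  haveI : CharP (IsLocalRing.ResidueField (RE P E)) q := charP_residue P E hS.lies_over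
  haveI : PerfectField (IsLocalRing.ResidueField (RE P E)) :=
    perfectField_residue P E hS.lies_over
  haveI : ExpChar (IsLocalRing.ResidueField (RE P E)) q := ExpChar.prime hS.q_prime
  have core : Fermat.Agent.S28.CoreData M (IsLocalRing.ResidueField (RE P E)) :=
    Fermat.Agent.S18.H516.coreData_of_charP M q hS.q_not_dvd _
  -- the representation of `a`
  obtain ⟨U₁, U₂, hU₂r, hU₂m, hU⟩ := (hVM a).mp ha
  have hU₁m : H708.incl (RE P E) U₁ ∈ FE E M := by
    rw [← hU]; exact mul_mem a.2 hU₂m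
  have hu₁ := Fermat.Agent.S18.H516.red_mem_of_incl_mem (RE P E)
    (IsLocalRing.residue (RE P E)) M core hU₁m
  have hu₂ := Fermat.Agent.S18.H516.red_mem_of_incl_mem (RE P E)
    (IsLocalRing.residue (RE P E)) M core hU₂m
  -- the twisted residue and its lift
  set u₁ := H708.red (RE P E) U₁ with hu₁def
  set u₂ := H708.red (RE P E) U₂ with hu₂def
  have hz : u₁ * u₂⁻¹ ∈ modularFunctionFieldFullC (IsLocalRing.ResidueField (RE P E)) M :=
    mul_mem hu₁ (inv_mem hu₂)
  set φ : IsLocalRing.ResidueField (RE P E) →+* IsLocalRing.ResidueField (RE P E) :=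
    (frobeniusEquiv (IsLocalRing.ResidueField (RE P E)) q).symm.toRingHom with hφ
  have hz' := Fermat.Agent.S37.H697.coeffMap_mem_fullC M φ hz
  obtain ⟨W₁, W₂, hW₁m, hW₂m, hW₂r, hW⟩ := exists_lift (P := P) (E := E) hz'
  set v₁ := H708.red (RE P E) W₁ with hv₁def
  set v₂ := H708.red (RE P E) W₂ with hv₂def
  have hW₂0 : H708.incl (RE P E) W₂ ≠ 0 :=
    H708.incl_ne_zero _ (H708.ne_zero_of_red_ne_zero _ hW₂r)
  -- the element `a'`
  refine ⟨⟨H708.incl (RE P E) W₁ * (H708.incl (RE P E) W₂)⁻¹,
    mul_mem hW₁m (inv_mem hW₂m)⟩, (hVM _).mpr ⟨W₁, W₂, hW₂r, hW₂m, ?_⟩, ?_⟩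
  · show H708.incl (RE P E) W₁ * (H708.incl (RE P E) W₂)⁻¹ * H708.incl (RE P E) W₂ = _
    rw [inv_mul_cancel_right₀ hW₂0]
  -- the congruence
  have hfrob : (ModularCurve.coeffMap φ (u₁ * u₂⁻¹)) ^ q = qExpand _ q (u₁ * u₂⁻¹) := by
    rw [Fermat.Agent.S37.H400.laurent_pow_char q, coeffMap_coeffMap]
    congr 1
    have : (frobenius (IsLocalRing.ResidueField (RE P E)) q).comp φ = RingHom.id _ := by
      ext x
      simp [hφ]
    rw [this, coeffMap_id]
  have hred : H708.red (RE P E)
      (qExpand (RE P E) q U₁ * W₂ ^ q - W₁ ^ q * qExpand (RE P E) q U₂) = 0 := by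
    rw [map_sub, map_mul, map_mul, map_pow, map_pow, coeffMap_qExpand, coeffMap_qExpand,
      ← hu₁def, ← hu₂def, ← hv₁def, ← hv₂def, ← hW, mul_pow, hfrob]
    have h1 : qExpand (IsLocalRing.ResidueField (RE P E)) q (u₁ * u₂⁻¹) *
        qExpand _ q u₂ = qExpand _ q u₁ := by
      rw [← map_mul, inv_mul_cancel_right₀ hU₂r]
    rw [← h1]
    ring
  obtain ⟨X', hX'⟩ := exists_incl_eq_cst_inv_mul P E w hS.dvr hS.unif hred
  have hw0 : (w : E) ≠ 0 := fun h => hS.unif.ne_zero (Subtype.ext h)
  rw [InW, hV]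
  refine ⟨X', qExpand (RE P E) q U₂ * W₂ ^ q, ?_, ?_, ?_⟩
  · rw [map_mul, map_pow, coeffMap_qExpand]
    exact mul_ne_zero (fun h => hU₂r (qExpand_injective q (h.trans (map_zero _).symm)))
      (pow_ne_zero _ hW₂r)
  · rw [map_mul, map_pow, coeffMap_qExpand]
    refine mul_mem ?_ (pow_mem ?_ q)
    · exact (βE E M q ⟨_, hU₂m⟩).2
    · exact (αE E M q ⟨_, hW₂m⟩).2
  · rw [hX']
    simp only [map_sub, map_mul, map_pow, coeffMap_qExpand]
    have hAB : qExpand E q (a : LaurentSeries E) * qExpand E q (H708.incl (RE P E) U₂) =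
        qExpand E q (H708.incl (RE P E) U₁) := by
      rw [← map_mul, hU]
    have h1 : (H708.incl (RE P E) W₁ * (H708.incl (RE P E) W₂)⁻¹) ^ q *
        (H708.incl (RE P E) W₂) ^ q = (H708.incl (RE P E) W₁) ^ q := by
      rw [← mul_pow, inv_mul_cancel_right₀ hW₂0]
    have hc : ((cE P E (M * q) w : FE E (M * q)) : LaurentSeries E) = H708.cst (w : E) := rfl
    have hcinv : H708.cst ((w : E)⁻¹) = (H708.cst (w : E))⁻¹ := map_inv₀ _ _
    show (qExpand E q (a : LaurentSeries E) -
        (H708.incl (RE P E) W₁ * (H708.incl (RE P E) W₂)⁻¹) ^ q) *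
        ((cE P E (M * q) w : FE E (M * q)) : LaurentSeries E)⁻¹ * _ = _
    rw [hc, hcinv]
    linear_combination ((H708.cst (w : E))⁻¹ * (H708.incl (RE P E) W₂) ^ q) * hAB -
      ((H708.cst (w : E))⁻¹ * qExpand E q (H708.incl (RE P E) U₂)) * h1

end kron

end Fermat.Agent.A2.Mod.H485
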